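/-
GATE-H (S19) / node ORD, part 2 (helper32): the "tensor image" subalgebra.  Mathlib only.

For a subalgebra `𝓗` of functions `M → K`, `tens 𝓗` is the subalgebra of functions on `M × M` of the
form `(x, y) ↦ Σ a_i x * b_i y` with `a_i, b_i ∈ 𝓗` (the image of `𝓗 ⊗ 𝓗`).  `Δ`-closure of an order
is `f ∘ add ∈ tens 𝓗` for every `f ∈ 𝓗`; it is enough to check it on algebra generators.
-/
import Mathlib

set_option autoImplicit false

namespace Fermat.Agent.GH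

variable {A : Type*} [CommRing A] {K : Type*} [CommRing K] [Algebra A K] {M : Type*}

/-- `φ (x, y) = Σ a_i x * b_i y` with `a_i, b_i ∈ 𝓗`. -/
def IsTens (𝓗 : Subalgebra A (M → K)) (φ : M × M → K) : Prop :=
  ∃ (ι : Type) (_ : Fintype ι) (a b : ι → (M → K)), (∀ i, a i ∈ 𝓗) ∧ (∀ i, b i ∈ 𝓗) ∧
    ∀ x y, φ (x, y) = ∑ i, a i x * b i y

theorem IsTens.zero (𝓗 : Subalgebra A (M → K)) : IsTens 𝓗 (0 : M × M → K) :=
  ⟨PEmpty, inferInstance, PEmpty.elim, PEmpty.elim, fun i => i.elim, fun i => i.elim,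
    fun _ _ => by simp⟩

theorem IsTens.of_algebraMap (𝓗 : Subalgebra A (M → K)) (r : A) :
    IsTens 𝓗 (algebraMap A (M × M → K) r) :=
  ⟨PUnit, inferInstance, fun _ => algebraMap A (M → K) r, fun _ => 1,
    fun _ => 𝓗.algebraMap_mem r, fun _ => 𝓗.one_mem, fun _ _ => by simp [Pi.algebraMap_apply]⟩

theorem IsTens.add {𝓗 : Subalgebra A (M → K)} {φ ψ : M × M → K} (hφ : IsTens 𝓗 φ)
    (hψ : IsTens 𝓗 ψ) : IsTens 𝓗 (φ + ψ) := by
  obtain ⟨ι, _, a, b, ha, hb, h⟩ := hφ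
  obtain ⟨ι', _, a', b', ha', hb', h'⟩ := hψ
  refine ⟨ι ⊕ ι', inferInstance, Sum.elim a a', Sum.elim b b', ?_, ?_, fun x y => ?_⟩
  · rintro (i | i)
    · exact ha i
    · exact ha' i
  · rintro (i | i)
    · exact hb i
    · exact hb' i
  · rw [Pi.add_apply, h, h', Fintype.sum_sum_type]
    rfl

theorem IsTens.mul {𝓗 : Subalgebra A (M → K)} {φ ψ : M × M → K} (hφ : IsTens 𝓗 φ)
    (hψ : IsTens 𝓗 ψ) : IsTens 𝓗 (φ * ψ) := by
  obtain ⟨ι, _, a, b, ha, hb, h⟩ := hφ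
  obtain ⟨ι', _, a', b', ha', hb', h'⟩ := hψ
  refine ⟨ι × ι', inferInstance, fun p => a p.1 * a' p.2, fun p => b p.1 * b' p.2,
    fun p => 𝓗.mul_mem (ha p.1) (ha' p.2), fun p => 𝓗.mul_mem (hb p.1) (hb' p.2), fun x y => ?_⟩
  rw [Pi.mul_apply, h, h', Finset.sum_mul_sum, Fintype.sum_prod_type]
  refine Finset.sum_congr rfl fun i _ => Finset.sum_congr rfl fun j _ => ?_
  simp only [Pi.mul_apply]
  ring

/-- the image of `𝓗 ⊗ 𝓗` in the functions on `M × M`. -/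
def tens (𝓗 : Subalgebra A (M → K)) : Subalgebra A (M × M → K) where
  carrier := {φ | IsTens 𝓗 φ}
  mul_mem' := IsTens.mul
  add_mem' := IsTens.add
  algebraMap_mem' := IsTens.of_algebraMap 𝓗

theorem mem_tens {𝓗 : Subalgebra A (M → K)} {φ : M × M → K} : φ ∈ tens 𝓗 ↔ IsTens 𝓗 φ := Iff.rfl

theorem comp_fst_mem_tens {𝓗 : Subalgebra A (M → K)} {f : M → K} (hf : f ∈ 𝓗) :
    (fun p : M × M => f p.1) ∈ tens 𝓗 :=
  ⟨PUnit, inferInstance, fun _ => f, fun _ => 1, fun _ => hf, fun _ => 𝓗.one_mem,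
    fun _ _ => by simp⟩

theorem comp_snd_mem_tens {𝓗 : Subalgebra A (M → K)} {f : M → K} (hf : f ∈ 𝓗) :
    (fun p : M × M => f p.2) ∈ tens 𝓗 :=
  ⟨PUnit, inferInstance, fun _ => 1, fun _ => f, fun _ => 𝓗.one_mem, fun _ => hf,
    fun _ _ => by simp⟩

/-- the `Fin`-indexed form of membership in `tens` (the shape consumed by the descent node). -/
theorem exists_fin_of_mem_tens {𝓗 : Subalgebra A (M → K)} {φ : M × M → K} (hφ : φ ∈ tens 𝓗) :
    ∃ (m : ℕ) (a b : Fin m → (M → K)), (∀ i, a i ∈ 𝓗) ∧ (∀ i, b i ∈ 𝓗) ∧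
      ∀ x y, φ (x, y) = ∑ i, a i x * b i y := by
  obtain ⟨ι, _, a, b, ha, hb, h⟩ := hφ
  refine ⟨Fintype.card ι, fun i => a ((Fintype.equivFin ι).symm i),
    fun i => b ((Fintype.equivFin ι).symm i), fun i => ha _, fun i => hb _, fun x y => ?_⟩
  rw [h]
  exact (Fintype.sum_equiv (Fintype.equivFin ι).symm _ _ fun i => rfl).symm

/-- **`Δ`-closure may be checked on generators.** -/
theorem comp_add_mem_tens_of_generators [Add M] (𝓖 : Set (M → K))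
    (h : ∀ f ∈ 𝓖, (fun p : M × M => f (p.1 + p.2)) ∈ tens (Algebra.adjoin A 𝓖)) :
    ∀ f ∈ Algebra.adjoin A 𝓖, (fun p : M × M => f (p.1 + p.2)) ∈ tens (Algebra.adjoin A 𝓖) := by
  intro f hf
  induction hf using Algebra.adjoin_induction with
  | mem f hf => exact h f hf
  | algebraMap r => exact (tens (Algebra.adjoin A 𝓖)).algebraMap_mem r
  | add f f' _ _ hf hf' => exact (tens (Algebra.adjoin A 𝓖)).add_mem hf hf'
  | mul f f' _ _ hf hf' => exact (tens (Algebra.adjoin A 𝓖)).mul_mem hf hf'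

end Fermat.Agent.GH
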