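/-
GATE-H (S19) / node ORD, part 1 (helper32): basic facts on `KerRed` and `IsCoord` in the
vocabulary of `GH/Vocab.lean`, and the tensor-image algebra `tens`.
-/
import Mathlib
import Fermat.Agent.GH.Vocab

set_option autoImplicit false

noncomputable section

open AlgebraicCurve

namespace Fermat.Agent.GH

open Fermat.Agent.RRh45 Fermat.Agent.GJ.S37MinDiv Fermat.Agent.GJ.J1 Fermat.Agent.GJ.S37LSpace
  Fermat.Agent.GJ.S37ROfSurj

variable {K F k Ft : Type*} [Field K] [Field F] [Algebra K F] [Field k] [Field Ft] [Algebra k Ft]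
variable {R : RedData K F k Ft} {g c : ℤ}
variable [FiniteResidues K F] [HasPrincipalDivisors K F] [Nonempty (Place K F)]
variable [FiniteResidues k Ft] [HasPrincipalDivisors k Ft] [Nonempty (Place k Ft)]
variable [Infinite k]

section KerRed

variable (H : LSpaceHyp R g c)

theorem zero_mem_KerRed : (0 : Pic0 K F) ∈ KerRed H := by
  refine ⟨0, rfl, ?_⟩
  simp only [ZeroMemClass.coe_zero, Finsupp.mapDomain_zero]
  exact (Divisor.principal (K := k) (F := Ft)).zero_mem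

theorem add_mem_KerRed {ξ η : Pic0 K F} (hξ : ξ ∈ KerRed H) (hη : η ∈ KerRed H) :
    ξ + η ∈ KerRed H := by
  obtain ⟨D, rfl, hD⟩ := hξ
  obtain ⟨E, rfl, hE⟩ := hη
  refine ⟨D + E, rfl, ?_⟩
  rw [AddSubgroup.coe_add, Finsupp.mapDomain_add]
  exact (Divisor.principal (K := k) (F := Ft)).add_mem hD hE

theorem neg_mem_KerRed {ξ : Pic0 K F} (hξ : ξ ∈ KerRed H) : -ξ ∈ KerRed H := by
  obtain ⟨D, rfl, hD⟩ := hξ
  refine ⟨-D, rfl, ?_⟩
  have : Finsupp.mapDomain (rOf H) ((-D : Divisor.degZero (K := K) (F := F)) : Divisor K F) =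
      -Finsupp.mapDomain (rOf H) (D : Divisor K F) := by
    rw [AddSubgroup.coe_neg]
    exact map_neg (Finsupp.mapDomain.addMonoidHom (rOf H)) _
  rw [this]
  exact (Divisor.principal (K := k) (F := Ft)).neg_mem hD

theorem sub_mem_KerRed {ξ η : Pic0 K F} (hξ : ξ ∈ KerRed H) (hη : η ∈ KerRed H) :
    ξ - η ∈ KerRed H := by
  rw [sub_eq_add_neg]
  exact add_mem_KerRed H hξ (neg_mem_KerRed H hη)

end KerRed

section IsCoord

variable {H : LSpaceHyp R g c} {n : ℕ}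

/-- a class with coordinates in a chart lies in the kernel of reduction. -/
theorem IsCoord.mem_KerRed {𝔠 : Chart H n} {ξ : Pic0 K F} {τ : Fin n → K} (h : IsCoord 𝔠 ξ τ) :
    ξ ∈ KerRed H := by
  obtain ⟨Pτ, hP, -, hdeg, rfl⟩ := h
  refine ⟨⟨_, hdeg⟩, rfl, ?_⟩
  have h0 : Finsupp.mapDomain (rOf H) ((∑ i, Finsupp.single (Pτ i) (1 : ℤ)) - 𝔠.D0) = 0 := by
    have h1 : Finsupp.mapDomain (rOf H) (∑ i, Finsupp.single (Pτ i) (1 : ℤ)) =
        ∑ i, Finsupp.single (𝔠.Q i) (1 : ℤ) := by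
      rw [Finsupp.mapDomain_finsetSum]
      refine Finset.sum_congr rfl fun i _ => ?_
      rw [Finsupp.mapDomain_single, hP i]
    have h2 : Finsupp.mapDomain (rOf H) 𝔠.D0 = ∑ i, Finsupp.single (𝔠.Q i) (1 : ℤ) := by
      rw [Chart.D0, Finsupp.mapDomain_finsetSum]
      refine Finset.sum_congr rfl fun i _ => ?_
      rw [Finsupp.mapDomain_single, (𝔠.pt i).hP]
    have h3 : Finsupp.mapDomain (rOf H) ((∑ i, Finsupp.single (Pτ i) (1 : ℤ)) - 𝔠.D0) =
        Finsupp.mapDomain (rOf H) (∑ i, Finsupp.single (Pτ i) (1 : ℤ)) -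
          Finsupp.mapDomain (rOf H) 𝔠.D0 :=
      map_sub (Finsupp.mapDomain.addMonoidHom (rOf H)) _ _
    rw [h3, h1, h2, sub_self]
  show Divisor.IsPrincipal (Finsupp.mapDomain (rOf H) _)
  rw [h0]
  exact (Divisor.principal (K := k) (F := Ft)).zero_mem

/-- the zero class has coordinates `0` in every chart. -/
theorem isCoord_zero (𝔠 : Chart H n) : IsCoord 𝔠 (0 : Pic0 K F) (fun _ => 0) := by
  refine ⟨fun i => (𝔠.pt i).P, fun i => (𝔠.pt i).hP, fun i => (𝔠.pt i).ht0, ?_⟩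
  have h0 : (∑ i, Finsupp.single ((𝔠.pt i).P) (1 : ℤ)) - 𝔠.D0 = 0 := sub_self _
  refine ⟨?_, ?_⟩
  · rw [h0]; exact (Divisor.degZero (K := K) (F := F)).zero_mem
  · have : (⟨(∑ i, Finsupp.single ((𝔠.pt i).P) (1 : ℤ)) - 𝔠.D0, by
        rw [h0]; exact (Divisor.degZero (K := K) (F := F)).zero_mem⟩ :
        Divisor.degZero (K := K) (F := F)) = 0 := Subtype.ext h0
    rw [this]
    rfl

end IsCoord

end Fermat.Agent.GH
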