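/-
GATE-H (S19) / node ORD, part 3 (helper32): from the node contracts `CoordSpec`, `CoordInj`,
`ChartSupply`, `AddSpec` to the `Δ`-stable family of generators.

* `transition` (O1): coordinates in one chart are `R.A`-polynomial in the coordinates in any other
  chart (AddSpec with second summand `0`, through an auxiliary chart) — so the `R.A`-algebra generated
  by chart coordinates does not depend on the chart.
* `ord_main` (O2)+(O3): for a finite subgroup `M` of `Pic0 K F`, shift classes `s` (one per coset of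
  `M` modulo the kernel of reduction) and ONE chart `𝔠₀`, the generators
  `x ↦ T i x` (coordinates of `x - s [x]`) and the indicators of the cosets are `R.A`-valued, separate
  the points of `M`, and every `f` in the algebra they generate has `f ∘ add ∈ tens (that algebra)`.
Frame in universe `0` (the application: `K = ℚ̄`).
-/
import Mathlib
import Fermat.Agent.GH.Ord.Basic
import Fermat.Agent.GH.Ord.Tens

set_option autoImplicit false

noncomputable section

open AlgebraicCurve

namespace Fermat.Agent.GH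

open Fermat.Agent.RRh45 Fermat.Agent.GJ.S37MinDiv Fermat.Agent.GJ.J1 Fermat.Agent.GJ.S37LSpace
  Fermat.Agent.GJ.S37ROfSurj

open scoped Classical

variable {K F k Ft : Type} [Field K] [Field F] [Algebra K F] [Field k] [Field Ft] [Algebra k Ft]
variable {R : RedData K F k Ft} {g c : ℤ}
variable [FiniteResidues K F] [HasPrincipalDivisors K F] [Nonempty (Place K F)]
variable [FiniteResidues k Ft] [HasPrincipalDivisors k Ft] [Nonempty (Place k Ft)]
variable [Infinite k]

/-- CONTRACT (nodes V + L): the coordinates determine the class. -/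
def CoordInj (H : LSpaceHyp R g c) (n : ℕ) : Prop :=
  ∀ (𝔠 : Chart H n) (ξ ξ' : Pic0 K F) (τ : Fin n → K), IsCoord 𝔠 ξ τ → IsCoord 𝔠 ξ' τ → ξ = ξ'

variable {H : LSpaceHyp R g c} {n : ℕ}

/-- the finite set of special places of a chart. -/
def Chart.suppF (𝔠 : Chart H n) : Finset (Place k Ft) := Finset.univ.image 𝔠.Q

theorem Chart.disjoint_supp {𝔞 𝔢 : Chart H n} {S : Finset (Place k Ft)} (hS : 𝔞.suppF ⊆ S)
    (h : ∀ i, 𝔢.Q i ∉ S) : Disjoint 𝔞.supp 𝔢.supp := by
  rw [Set.disjoint_left]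
  rintro _ ⟨i, rfl⟩ ⟨j, hj⟩
  exact h j (hS (by rw [hj]; exact Finset.mem_image_of_mem _ (Finset.mem_univ i)))

theorem Chart.disjoint_supp' {𝔞 𝔢 : Chart H n} {S : Finset (Place k Ft)} (hS : 𝔞.suppF ⊆ S)
    (h : ∀ i, 𝔢.Q i ∉ S) : Disjoint 𝔢.supp 𝔞.supp :=
  (Chart.disjoint_supp hS h).symm

/-- adjoining zero functions changes nothing. -/
theorem adjoin_union_zero_le {A : Type*} [CommRing A] {B : Type*} [CommRing B] [Algebra A B]
    (S S0 : Set B) (h0 : ∀ f ∈ S0, f = 0) : Algebra.adjoin A (S ∪ S0) ≤ Algebra.adjoin A S := by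
  refine Algebra.adjoin_le ?_
  rintro f (hf | hf)
  · exact Algebra.subset_adjoin hf
  · rw [h0 f hf]; exact (Algebra.adjoin A S).zero_mem

/-- **(O1) transition between charts.** -/
theorem transition (hco : CoordSpec H n) (hsup : ChartSupply H n) (hadd : AddSpec H n)
    (𝔞 𝔠 : Chart H n) (Z : Type) [Finite Z] (ξ : Z → Pic0 K F) (τ μ : Z → Fin n → K)
    (hτ : ∀ z, IsCoord 𝔞 (ξ z) (τ z)) (hμ : ∀ z, IsCoord 𝔠 (ξ z) (μ z)) (j : Fin n) :
    (fun z => μ z j) ∈ Algebra.adjoin R.A {f : Z → K | ∃ i, f = fun z => τ z i} := by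
  obtain ⟨𝔢, h𝔢⟩ := hsup (𝔞.suppF ∪ 𝔠.suppF)
  obtain ⟨𝔟, h𝔟⟩ := hsup (𝔞.suppF ∪ 𝔢.suppF)
  obtain ⟨𝔟', h𝔟'⟩ := hsup (𝔢.suppF ∪ 𝔠.suppF)
  have hξ : ∀ z, ξ z ∈ KerRed H := fun z => (hτ z).mem_KerRed
  choose ε hε using fun z => (hco 𝔢 (ξ z) (hξ z)).1
  -- first step: 𝔞 → 𝔢
  have h1 : ∀ i, (fun z => ε z i) ∈ Algebra.adjoin R.A {f : Z → K | ∃ i, f = fun z => τ z i} := by
    intro i
    have := hadd 𝔞 𝔟 𝔢 (Chart.disjoint_supp Finset.subset_union_left h𝔟)
      (Chart.disjoint_supp Finset.subset_union_left h𝔢)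
      (Chart.disjoint_supp' Finset.subset_union_right h𝔟)
      Z ξ (fun _ => 0) τ (fun _ _ => 0) ε hτ (fun _ => isCoord_zero 𝔟)
      (fun z => by simpa using hε z) i
    exact adjoin_union_zero_le _ _ (by rintro f ⟨i, rfl⟩; rfl) this
  -- second step: 𝔢 → 𝔠
  have h2 := hadd 𝔢 𝔟' 𝔠 (Chart.disjoint_supp Finset.subset_union_left h𝔟')
    (Chart.disjoint_supp' Finset.subset_union_right h𝔢)
    (Chart.disjoint_supp' Finset.subset_union_right h𝔟')
    Z ξ (fun _ => 0) ε (fun _ _ => 0) μ hε (fun _ => isCoord_zero 𝔟')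
    (fun z => by simpa using hμ z) j
  have h3 := adjoin_union_zero_le (A := R.A) {f : Z → K | ∃ i, f = fun z => ε z i}
    {f : Z → K | ∃ i : Fin n, f = fun _ => (0 : K)} (by rintro f ⟨i, rfl⟩; rfl) h2
  refine (Algebra.adjoin_le ?_ : Algebra.adjoin R.A {f : Z → K | ∃ i, f = fun z => ε z i} ≤ _) h3
  rintro f ⟨i, rfl⟩
  exact h1 i

/-! ### the generators -/

section Main

variable (H) (M : AddSubgroup (Pic0 K F))

/-- the classes of `M` with principal reduction. -/
def kerRedOf : AddSubgroup M where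
  carrier := {x | (x : Pic0 K F) ∈ KerRed H}
  zero_mem' := zero_mem_KerRed H
  add_mem' := fun hx hy => add_mem_KerRed H hx hy
  neg_mem' := fun hx => neg_mem_KerRed H hx

/-- the indicator of a coset of `M` modulo the kernel of reduction. -/
def indQ (ω : M ⧸ kerRedOf H M) (x : M) : K :=
  if (QuotientAddGroup.mk x : M ⧸ kerRedOf H M) = ω then 1 else 0

/-- the generator family: coordinates and coset indicators. -/
def gens (T : Fin n → M → K) : Set (M → K) := Set.range T ∪ Set.range (indQ H M)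

variable {H M}

theorem mk_eq_mk_iff {x y : M} :
    (QuotientAddGroup.mk x : M ⧸ kerRedOf H M) = QuotientAddGroup.mk y ↔
      (x : Pic0 K F) - y ∈ KerRed H := by
  rw [QuotientAddGroup.eq]
  constructor
  · intro h
    have h1 : ((-x + y : M) : Pic0 K F) ∈ KerRed H := h
    have h2 := neg_mem_KerRed H h1
    have h3 : -(((-x + y : M) : Pic0 K F)) = (x : Pic0 K F) - y := by
      push_cast; abel
    rwa [h3] at h2
  · intro h
    have h2 := neg_mem_KerRed H h
    have h3 : -((x : Pic0 K F) - y) = ((-x + y : M) : Pic0 K F) := by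
      push_cast; abel
    rw [h3] at h2
    exact h2

/-- a double sum against coset indicators picks one term. -/
theorem sum_indQ_indQ [Fintype (M ⧸ kerRedOf H M)] (cst : (M ⧸ kerRedOf H M) → (M ⧸ kerRedOf H M) → K)
    (x y : M) :
    ∑ ω₁, ∑ ω₂, cst ω₁ ω₂ * indQ H M ω₁ x * indQ H M ω₂ y =
      cst (QuotientAddGroup.mk x) (QuotientAddGroup.mk y) := by
  rw [Finset.sum_eq_single (QuotientAddGroup.mk x : M ⧸ kerRedOf H M)]
  · rw [Finset.sum_eq_single (QuotientAddGroup.mk y : M ⧸ kerRedOf H M)]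
    · simp [indQ]
    · intro ω _ hω
      simp [indQ, hω.symm]
    · intro h; exact absurd (Finset.mem_univ _) h
  · intro ω _ hω
    refine Finset.sum_eq_zero fun ω₂ _ => ?_
    simp [indQ, hω.symm]
  · intro h; exact absurd (Finset.mem_univ _) h

/-- **(O2)+(O3): the generator family is `R.A`-valued, separating and `Δ`-stable.** -/
theorem ord_main (hco : CoordSpec H n) (hinj : CoordInj H n) (hsup : ChartSupply H n)
    (hadd : AddSpec H n) [Finite M]
    (s : M ⧸ kerRedOf H M → Pic0 K F)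
    (hs : ∀ x : M, (x : Pic0 K F) - s (QuotientAddGroup.mk x) ∈ KerRed H)
    (𝔠₀ : Chart H n) (T : Fin n → M → K)
    (hT : ∀ x : M, IsCoord 𝔠₀ ((x : Pic0 K F) - s (QuotientAddGroup.mk x)) (fun i => T i x)) :
    (∀ f ∈ gens H M T, ∀ x, f x ∈ R.A) ∧
    (∀ x y : M, x ≠ y → ∃ f ∈ gens H M T, f x ≠ f y) ∧
    ∀ f ∈ Algebra.adjoin R.A (gens H M T),
      (fun p : M × M => f (p.1 + p.2)) ∈ tens (Algebra.adjoin R.A (gens H M T)) := by
  have : Fintype (M ⧸ kerRedOf H M) := Fintype.ofFinite _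
  set 𝓗 := Algebra.adjoin R.A (gens H M T) with h𝓗
  have hTmem : ∀ i, T i ∈ 𝓗 := fun i => Algebra.subset_adjoin (Or.inl ⟨i, rfl⟩)
  have hindmem : ∀ ω, indQ H M ω ∈ 𝓗 := fun ω => Algebra.subset_adjoin (Or.inr ⟨ω, rfl⟩)
  refine ⟨?_, ?_, ?_⟩
  · -- values
    rintro f (⟨i, rfl⟩ | ⟨ω, rfl⟩) x
    · have := (hco 𝔠₀ _ (hs x)).2.2 _ (hT x) i
      exact (R.A.valuation_le_one_iff _).1 this.le
    · unfold indQ
      split_ifs
      · exact R.A.one_mem
      · exact R.A.zero_mem
  · -- separation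
    intro x y hxy
    by_cases hq : (QuotientAddGroup.mk x : M ⧸ kerRedOf H M) = QuotientAddGroup.mk y
    · by_contra hno
      push Not at hno
      have hTeq : (fun i => T i x) = fun i => T i y :=
        funext fun i => hno (T i) (Or.inl ⟨i, rfl⟩)
      have h1 := hT x
      have h2 := hT y
      rw [hTeq, hq] at h1
      have h3 := hinj 𝔠₀ _ _ _ h1 h2
      have : (x : Pic0 K F) = y := by
        have := congrArg (· + s (QuotientAddGroup.mk y)) h3
        simpa using this
      exact hxy (Subtype.ext this)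
    · refine ⟨indQ H M (QuotientAddGroup.mk x), Or.inr ⟨_, rfl⟩, ?_⟩
      simp [indQ, Ne.symm hq]
  · -- Δ-stability: enough on generators
    refine comp_add_mem_tens_of_generators (gens H M T) ?_
    rintro f (⟨j, rfl⟩ | ⟨ω, rfl⟩)
    · -- a coordinate function
      -- shift cocycle
      have hδ : ∀ ω₁ ω₂ : M ⧸ kerRedOf H M, s ω₁ + s ω₂ - s (ω₁ + ω₂) ∈ KerRed H := by
        intro ω₁ ω₂
        obtain ⟨x, rfl⟩ := QuotientAddGroup.mk_surjective ω₁
        obtain ⟨y, rfl⟩ := QuotientAddGroup.mk_surjective ω₂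
        have h1 := add_mem_KerRed H (hs x) (hs y)
        have h2 := hs (x + y)
        have h3 := sub_mem_KerRed H h1 h2
        have h4 : ((x : Pic0 K F) - s (QuotientAddGroup.mk x)) +
            ((y : Pic0 K F) - s (QuotientAddGroup.mk y)) -
            (((x + y : M) : Pic0 K F) - s (QuotientAddGroup.mk (x + y))) =
            -(s (QuotientAddGroup.mk x) + s (QuotientAddGroup.mk y) -
              s (QuotientAddGroup.mk x + QuotientAddGroup.mk y)) := by
          rw [QuotientAddGroup.mk_add]; push_cast; abel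
        rw [h4] at h3
        simpa using neg_mem_KerRed H h3
      -- the charts
      obtain ⟨𝔢, h𝔢⟩ := hsup 𝔠₀.suppF
      obtain ⟨𝔡, h𝔡⟩ := hsup (𝔠₀.suppF ∪ 𝔢.suppF)
      obtain ⟨𝔞, h𝔞⟩ := hsup 𝔢.suppF
      obtain ⟨𝔟, h𝔟⟩ := hsup (𝔢.suppF ∪ 𝔞.suppF)
      -- the classes
      set ξ : M × M → Pic0 K F := fun z => (z.1 : Pic0 K F) - s (QuotientAddGroup.mk z.1) with hξd
      set η : M × M → Pic0 K F := fun z => (z.2 : Pic0 K F) - s (QuotientAddGroup.mk z.2) with hηd
      have hξ : ∀ z, ξ z ∈ KerRed H := fun z => hs z.1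
      have hη : ∀ z, η z ∈ KerRed H := fun z => hs z.2
      choose α hα using fun z => (hco 𝔞 (ξ z) (hξ z)).1
      choose β hβ using fun z => (hco 𝔟 (η z) (hη z)).1
      choose ε hε using fun z => (hco 𝔢 (ξ z + η z) (add_mem_KerRed H (hξ z) (hη z))).1
      choose d hd using fun ω₁ ω₂ => (hco 𝔡 _ (hδ ω₁ ω₂)).1
      have hdA : ∀ ω₁ ω₂ i, d ω₁ ω₂ i ∈ R.A := fun ω₁ ω₂ i =>
        (R.A.valuation_le_one_iff _).1 ((hco 𝔡 _ (hδ ω₁ ω₂)).2.2 _ (hd ω₁ ω₂) i).le
      -- membership of the input coordinates in the tensor image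
      have hα𝒯 : ∀ i, (fun z : M × M => α z i) ∈ tens 𝓗 := by
        intro i
        have := transition hco hsup hadd 𝔠₀ 𝔞 (M × M) ξ (fun z i => T i z.1) α
          (fun z => hT z.1) hα i
        refine (Algebra.adjoin_le ?_ : Algebra.adjoin R.A _ ≤ tens 𝓗) this
        rintro f ⟨i, rfl⟩
        exact comp_fst_mem_tens (hTmem i)
      have hβ𝒯 : ∀ i, (fun z : M × M => β z i) ∈ tens 𝓗 := by
        intro i
        have := transition hco hsup hadd 𝔠₀ 𝔟 (M × M) η (fun z i => T i z.2) β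
          (fun z => hT z.2) hβ i
        refine (Algebra.adjoin_le ?_ : Algebra.adjoin R.A _ ≤ tens 𝓗) this
        rintro f ⟨i, rfl⟩
        exact comp_snd_mem_tens (hTmem i)
      have hε𝒯 : ∀ i, (fun z : M × M => ε z i) ∈ tens 𝓗 := by
        intro i
        have := hadd 𝔞 𝔟 𝔢 (Chart.disjoint_supp Finset.subset_union_right h𝔟)
          (Chart.disjoint_supp' (le_refl _) h𝔞)
          (Chart.disjoint_supp' Finset.subset_union_left h𝔟)
          (M × M) ξ η α β ε hα hβ hε i
        refine (Algebra.adjoin_le ?_ : Algebra.adjoin R.A _ ≤ tens 𝓗) this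
        rintro f (⟨i, rfl⟩ | ⟨i, rfl⟩)
        · exact hα𝒯 i
        · exact hβ𝒯 i
      have hd𝒯 : ∀ i, (fun z : M × M =>
          d (QuotientAddGroup.mk z.1) (QuotientAddGroup.mk z.2) i) ∈ tens 𝓗 := by
        intro i
        have hfun : (fun z : M × M => d (QuotientAddGroup.mk z.1) (QuotientAddGroup.mk z.2) i) =
            ∑ ω₁, ∑ ω₂, (algebraMap R.A (M × M → K) ⟨d ω₁ ω₂ i, hdA ω₁ ω₂ i⟩ *
              (fun p : M × M => indQ H M ω₁ p.1)) * (fun p : M × M => indQ H M ω₂ p.2) := by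
          funext z
          rw [Finset.sum_apply]
          simp only [Finset.sum_apply, Pi.mul_apply, Pi.algebraMap_apply]
          exact (sum_indQ_indQ (fun ω₁ ω₂ => d ω₁ ω₂ i) z.1 z.2).symm
        rw [hfun]
        refine Subalgebra.sum_mem _ fun ω₁ _ => Subalgebra.sum_mem _ fun ω₂ _ => ?_
        exact (tens 𝓗).mul_mem ((tens 𝓗).mul_mem ((tens 𝓗).algebraMap_mem _)
          (comp_fst_mem_tens (hindmem ω₁))) (comp_snd_mem_tens (hindmem ω₂))
      -- the sum in the chart 𝔠₀
      have hkey : ∀ z : M × M, ξ z + η z +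
          (s (QuotientAddGroup.mk z.1) + s (QuotientAddGroup.mk z.2) -
            s (QuotientAddGroup.mk z.1 + QuotientAddGroup.mk z.2)) =
          ((z.1 + z.2 : M) : Pic0 K F) - s (QuotientAddGroup.mk (z.1 + z.2)) := by
        intro z
        rw [QuotientAddGroup.mk_add, hξd, hηd]; push_cast; abel
      have := hadd 𝔢 𝔡 𝔠₀ (Chart.disjoint_supp Finset.subset_union_right h𝔡)
        (Chart.disjoint_supp' (le_refl _) h𝔢)
        (Chart.disjoint_supp' Finset.subset_union_left h𝔡)
        (M × M) (fun z => ξ z + η z)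
        (fun z => s (QuotientAddGroup.mk z.1) + s (QuotientAddGroup.mk z.2) -
            s (QuotientAddGroup.mk z.1 + QuotientAddGroup.mk z.2))
        ε (fun z => d (QuotientAddGroup.mk z.1) (QuotientAddGroup.mk z.2))
        (fun z i => T i (z.1 + z.2)) hε (fun z => hd _ _)
        (fun z => by rw [hkey z]; exact hT (z.1 + z.2)) j
      refine (Algebra.adjoin_le ?_ : Algebra.adjoin R.A _ ≤ tens 𝓗) this
      rintro f (⟨i, rfl⟩ | ⟨i, rfl⟩)
      · exact hε𝒯 i
      · exact hd𝒯 i
    · -- a coset indicator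
      have hfun : (fun p : M × M => indQ H M ω (p.1 + p.2)) =
          ∑ ω₁, (fun p : M × M => indQ H M ω₁ p.1) * (fun p : M × M => indQ H M (ω - ω₁) p.2) := by
        funext p
        rw [Finset.sum_apply]
        simp only [Pi.mul_apply]
        rw [Finset.sum_eq_single (QuotientAddGroup.mk p.1 : M ⧸ kerRedOf H M)]
        · simp only [indQ, QuotientAddGroup.mk_add, if_true, one_mul]
          congr 1
          rw [eq_iff_iff]
          exact ⟨fun h => by rw [← h]; abel, fun h => by rw [h]; abel⟩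
        · intro ω₁ _ hω
          simp [indQ, hω.symm]
        · intro h; exact absurd (Finset.mem_univ _) h
      rw [hfun]
      refine Subalgebra.sum_mem _ fun ω₁ _ => ?_
      exact (tens 𝓗).mul_mem (comp_fst_mem_tens (hindmem ω₁)) (comp_snd_mem_tens (hindmem _))

end Main

end Fermat.Agent.GH
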